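import Fermat.Agent.Igusa.Degen

/-!
# Behaviour of `Δ(dτ)` and of cusp forms at all cusps
-/

set_option autoImplicit false

noncomputable section

open UpperHalfPlane hiding I
open Complex ModularForm CongruenceSubgroup Matrix.SpecialLinearGroup Asymptotics Filter
open scoped Real MatrixGroups Topology Pointwise

namespace Fermat.Agent.Cor.Eta

open Fermat.Agent.Igusa Fermat.Agent.IntStruct Fermat.Agent.S28aux Fermat.Agent.JLevelOne

/-- `Δ` as a modular form of level one. -/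
def discForm : ModularForm 𝒮ℒ 12 := ModularFormClass.modularForm CuspForm.discriminant

theorem discForm_apply (τ : ℍ) : discForm τ = discriminant τ := rfl

theorem disc_exp_isBigO : (fun τ : ℍ => Real.exp (-2 * π * τ.im)) =O[atImInfty] ⇑discForm :=
  exp_isBigO_discriminant

/-- Lower bound for `Δ(dτ)` at the cusp `γ∞`. -/
theorem exists_lower (d : ℕ) [NeZero d] (γ : SL(2, ℤ)) :
    ∃ A : ℕ, A ∣ d ∧ (A : ℤ) ∣ γ 1 0 ∧
      (fun τ : ℍ => Real.exp (-2 * π * ((A : ℝ) ^ 2 / d) * τ.im)) =O[atImInfty]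
        fun τ : ℍ => discriminant (mulN d (γ • τ)) * (UpperHalfPlane.denom γ τ) ^ (-12 : ℤ) := by
  obtain ⟨A, D, B, γ', hAD, hN, hA, h⟩ := diag_mul_decomp d γ
  refine ⟨A, ⟨D, hN.symm⟩, hA, ?_⟩
  have hd0 : (d : ℂ) ≠ 0 := by exact_mod_cast NeZero.ne d
  have hdet : ((upperTriangularGL A B D hAD).det : ℝ) = (A * D : ℕ) := by
    rw [Matrix.GeneralLinearGroup.val_det_apply, val_upperTriangularGL, Matrix.det_fin_two_of]
    push_cast
    ring
  have hpos : 0 < ((upperTriangularGL A B D hAD).det : ℝ) := by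
    rw [hdet]
    push_cast
    exact lt_of_le_of_ne (by positivity) (Ne.symm hAD)
  have hfun : (⇑discForm ∣[(12 : ℤ)] upperTriangularGL A B D hAD) = fun τ =>
      discForm (upperTriangularGL A B D hAD • τ) *
        (((A * D : ℕ) : ℂ) ^ ((12 : ℤ) - 1) * (D : ℂ) ^ (-(12 : ℤ))) := by
    funext τ
    rw [ModularForm.slash_apply, UpperHalfPlane.σ, if_pos hpos, hdet]
    have hden : UpperHalfPlane.denom (upperTriangularGL A B D hAD) τ = D := by
      simp [UpperHalfPlane.denom]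
    rw [hden]
    simp only [ContinuousAlgEquiv.refl_apply, Nat.abs_cast, Complex.ofReal_natCast, mul_assoc]
  have h' : heckeDiagMatrix d * (γ : GL (Fin 2) ℝ) =
      mapGL ℝ γ' * upperTriangularGL A B D hAD := h
  have key : (⇑discForm ∣[(12 : ℤ)] heckeDiagMatrix d) ∣[(12 : ℤ)] γ =
      ⇑discForm ∣[(12 : ℤ)] upperTriangularGL A B D hAD := by
    rw [SL_slash, ← SlashAction.slash_mul, h', form_slash_mul]
  have hAD0 : (A : ℂ) ≠ 0 ∧ (D : ℂ) ≠ 0 := by
    constructor
    · rintro h0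
      apply hAD
      have : A = 0 := by exact_mod_cast h0
      rw [this]; simp
    · rintro h0
      apply hAD
      have : D = 0 := by exact_mod_cast h0
      rw [this]; simp
  obtain ⟨C, hC0, hC⟩ : ∃ C : ℂ, C ≠ 0 ∧ ∀ τ : ℍ,
      discriminant (mulN d (γ • τ)) * (UpperHalfPlane.denom γ τ) ^ (-12 : ℤ) =
        C * discForm (upperTriangularGL A B D hAD • τ) := by
    refine ⟨((d : ℂ) ^ ((12 : ℤ) - 1))⁻¹ *
      (((A * D : ℕ) : ℂ) ^ ((12 : ℤ) - 1) * (D : ℂ) ^ (-(12 : ℤ))), ?_, fun τ => ?_⟩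
    · refine mul_ne_zero (inv_ne_zero (zpow_ne_zero _ hd0)) (mul_ne_zero (zpow_ne_zero _ ?_)
        (zpow_ne_zero _ hAD0.2))
      push_cast
      exact mul_ne_zero hAD0.1 hAD0.2
    · have h1 := congrFun key τ
      rw [hfun, ModularForm.SL_slash_apply, slash_heckeDiagMatrix_apply 12 (NeZero.ne d)] at h1
      have h2 : heckeDiagMatrix d • (γ • τ) = mulN d (γ • τ) := by
        ext
        rw [coe_heckeDiagMatrix_smul (NeZero.ne d), coe_mulN]
      rw [h2, discForm_apply] at h1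
      have h3 := zpow_ne_zero ((12 : ℤ) - 1) hd0
      rw [inv_mul_eq_div, div_mul_eq_mul_div, eq_div_iff h3, mul_comm _ (discForm _)]
      refine Eq.trans ?_ h1
      ring
  have h10 : (upperTriangularGL A B D hAD) 1 0 = 0 := by simp
  have h2 := disc_exp_isBigO.comp_tendsto (tendsto_smul_atImInfty h10)
  have h3 : ((fun τ : ℍ => Real.exp (-2 * π * τ.im)) ∘
      fun τ => upperTriangularGL A B D hAD • τ) =
      fun τ : ℍ => Real.exp (-2 * π * ((A : ℝ) ^ 2 / d) * τ.im) := by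
    funext τ
    simp only [Function.comp]
    congr 1
    have him : (upperTriangularGL A B D hAD • τ).im = (A : ℝ) ^ 2 / d * τ.im := by
      rw [UpperHalfPlane.im_smul_eq_div_normSq]
      have hden : UpperHalfPlane.denom (upperTriangularGL A B D hAD) τ = D := by
        simp [UpperHalfPlane.denom]
      rw [hden, hdet, ← hN]
      have hD0 : (D : ℝ) ≠ 0 := by
        rintro h0; apply hAD; rw [h0, mul_zero]
      have hA0 : (A : ℝ) ≠ 0 := by
        rintro h0; apply hAD; rw [h0, zero_mul]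
      push_cast
      rw [Complex.normSq_natCast, abs_of_nonneg (by positivity)]
      field_simp
    rw [him]; ring
  rw [h3] at h2
  refine h2.trans ?_
  have h4 : (fun τ : ℍ => discriminant (mulN d (γ • τ)) *
      (UpperHalfPlane.denom γ τ) ^ (-12 : ℤ)) =
      fun τ => C * discForm (upperTriangularGL A B D hAD • τ) := funext hC
  rw [h4]
  exact (isBigO_refl _ _).const_mul_right hC0

/-! ### Decay of cusp forms at all cusps -/

theorem conj_mem_Gamma0 {N w : ℕ} (γ : SL(2, ℤ)) (h : (N : ℤ) ∣ γ 1 0 ^ 2 * w) :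
    γ * ModularGroup.T ^ (w : ℤ) * γ⁻¹ ∈ Gamma0 N := by
  rw [Gamma0_mem, ZMod.intCast_zmod_eq_zero_iff_dvd]
  have h1 : (γ * ModularGroup.T ^ (w : ℤ) * γ⁻¹) 1 0 = - (γ 1 0 ^ 2 * w) := by
    have hT := ModularGroup.coe_T_zpow (w : ℤ)
    simp only [Matrix.SpecialLinearGroup.coe_mul, Matrix.SpecialLinearGroup.coe_inv,
      Matrix.adjugate_fin_two, hT]
    simp [Matrix.mul_apply, Fin.sum_univ_two]
    ring
  rw [h1]
  exact h.neg_right

theorem upper {N : ℕ} [NeZero N] (f : CuspForm (Gamma0 N) 2) (γ : SL(2, ℤ)) {w : ℕ}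
    (hw : 0 < w) (h : (N : ℤ) ∣ γ 1 0 ^ 2 * w) :
    (fun τ : ℍ => f (γ • τ) * (UpperHalfPlane.denom γ τ) ^ (-2 : ℤ)) =O[atImInfty]
      fun τ : ℍ => Real.exp (-2 * π * τ.im / w) := by
  have hw' : (0 : ℝ) < w := by exact_mod_cast hw
  have h1 := CuspFormClass.exp_decay_atImInfty (CuspForm.translate f (γ : GL (Fin 2) ℝ))
    (h := (w : ℝ)) hw' (by
      rw [Subgroup.mem_strictPeriods_iff, Subgroup.mem_pointwise_smul_iff_inv_smul_mem,
        ← map_inv, inv_inv, ConjAct.toConjAct_smul]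
      refine ⟨γ * ModularGroup.T ^ (w : ℤ) * γ⁻¹, conj_mem_Gamma0 γ h, ?_⟩
      rw [map_mul, map_mul, map_inv]
      have hT : mapGL ℝ (ModularGroup.T ^ (w : ℤ)) =
          Matrix.GeneralLinearGroup.upperRightHom (w : ℝ) := by
        ext i j
        rw [Matrix.SpecialLinearGroup.mapGL_coe_matrix]
        rw [Matrix.SpecialLinearGroup.map_apply_coe, ModularGroup.coe_T_zpow]
        fin_cases i <;> fin_cases j <;> simp [Matrix.GeneralLinearGroup.upperRightHom]
      rw [hT]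
      rfl)
  have h2 : ⇑(CuspForm.translate f (γ : GL (Fin 2) ℝ)) =
      fun τ : ℍ => f (γ • τ) * (UpperHalfPlane.denom γ τ) ^ (-2 : ℤ) := by
    funext τ
    exact ModularForm.SL_slash_apply ⇑f γ τ
  rwa [h2] at h1

end Fermat.Agent.Cor.Eta
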