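import Fermat.Agent.Corollaries.Eta.Prod

/-!
# Fourier coefficients of eta products
-/

set_option autoImplicit false

noncomputable section

open UpperHalfPlane hiding I
open Complex hiding eta
open ModularForm CongruenceSubgroup Matrix.SpecialLinearGroup Asymptotics Filter
open scoped Real MatrixGroups Topology Manifold

namespace Fermat.Agent.Cor.Eta

open Fermat.Agent.Igusa

local notation "𝕢" => Function.Periodic.qParam

/-! ### A power series which is `O(q ^ K)` -/

theorem coeff_eq_zero_of_isBigO (K : ℕ) {r : ℝ} (hr : 0 < r) {b : ℕ → ℂ} {g : ℂ → ℂ}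
    (hs : ∀ q : ℂ, q ≠ 0 → ‖q‖ < r → HasSum (fun n => b n * q ^ n) (g q))
    (hO : g =O[𝓝[≠] 0] fun q => q ^ K) : ∀ n < K, b n = 0 := by
  induction K generalizing b g with
  | zero => intro n hn; omega
  | succ K ih =>
    have hr2 : 0 < r / 2 := by positivity
    have hsum : Summable fun n => ‖b n‖ * (r / 2) ^ n := by
      have h1 := (hs ((r / 2 : ℝ) : ℂ) (by exact_mod_cast hr2.ne') (by
        rw [Complex.norm_real, Real.norm_of_nonneg hr2.le]; linarith)).summable.norm
      refine h1.congr fun n => ?_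
      rw [norm_mul, norm_pow, Complex.norm_real, Real.norm_of_nonneg hr2.le]
    have hball : ∀ᶠ q : ℂ in 𝓝[≠] 0, q ≠ 0 ∧ ‖q‖ < r / 2 := by
      refine eventually_mem_nhdsWithin.and (mem_nhdsWithin_of_mem_nhds ?_)
      have := Metric.ball_mem_nhds (0 : ℂ) hr2
      filter_upwards [this] with q hq
      simpa using hq
    have hb0 : b 0 = 0 := by
      have h1 : Tendsto (fun q : ℂ => ∑' n, b n * q ^ n) (𝓝[≠] 0)
          (𝓝 (∑' n, b n * (0 : ℂ) ^ n)) := by
        refine tendsto_tsum_of_dominated_convergence hsum (fun n => ?_) ?_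
        · exact ((continuous_const.mul (continuous_pow n)).tendsto 0).mono_left nhdsWithin_le_nhds
        · filter_upwards [hball] with q hq n
          rw [norm_mul, norm_pow]
          exact mul_le_mul_of_nonneg_left (pow_le_pow_left₀ (norm_nonneg _) hq.2.le n)
            (norm_nonneg _)
      have h2 : (∑' n, b n * (0 : ℂ) ^ n) = b 0 := by
        rw [tsum_eq_single 0 (fun n hn => by rw [zero_pow hn, mul_zero])]
        simp
      have h3 : Tendsto g (𝓝[≠] 0) (𝓝 0) := by
        refine hO.trans_tendsto ?_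
        have := ((continuous_pow (K + 1)).tendsto (0 : ℂ)).mono_left
          (nhdsWithin_le_nhds (s := {0}ᶜ))
        simpa using this
      have h4 : (fun q : ℂ => ∑' n, b n * q ^ n) =ᶠ[𝓝[≠] 0] g := by
        filter_upwards [hball] with q hq
        exact (hs q hq.1 (by linarith [hq.2])).tsum_eq
      rw [h2] at h1
      exact tendsto_nhds_unique (h1.congr' h4) h3
    have hs' : ∀ q : ℂ, q ≠ 0 → ‖q‖ < r → HasSum (fun n => b (n + 1) * q ^ n) (g q / q) := by
      intro q hq hqr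
      have h1 := hs q hq hqr
      rw [← hasSum_nat_add_iff' 1] at h1
      have h2 := h1.div_const q
      simp only [Finset.sum_range_one, hb0, zero_mul, sub_zero] at h2
      refine h2.congr_fun fun n => ?_
      rw [pow_succ]
      field_simp
    have hO' : (fun q => g q / q) =O[𝓝[≠] 0] fun q => q ^ K := by
      obtain ⟨C, hC⟩ := isBigO_iff.mp hO
      refine isBigO_iff.mpr ⟨C, ?_⟩
      filter_upwards [hC, hball] with q hq hq2
      rw [norm_div, norm_pow, div_le_iff₀ (norm_pos_iff.mpr hq2.1)]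
      rw [norm_pow, pow_succ, ← mul_assoc] at hq
      exact hq
    intro n hn
    rcases n with _ | n
    · exact hb0
    · exact ih hs' hO' n (by omega)

/-! ### The Euler product -/

/-- `∏_{n ≥ 1} (1 - x ^ n)` -/
def eulerP (x : ℂ) : ℂ := ∏' n : ℕ, (1 - x ^ (n + 1))

/-- the tail of the Euler product -/
def eulerTail (M : ℕ) (x : ℂ) : ℂ := ∏' n : ℕ, (1 - x ^ (n + M + 1))

theorem multipliable_tail (M : ℕ) {x : ℂ} (hx : ‖x‖ < 1) :
    Multipliable fun n : ℕ => 1 - x ^ (n + M + 1) := by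
  apply multipliable_one_add_of_summable (f := fun n : ℕ => -x ^ (n + M + 1))
  have h := summable_geometric_of_lt_one (norm_nonneg _) hx
  have := (summable_nat_add_iff (M + 1)).mpr h
  simpa [norm_neg, norm_pow, add_assoc] using this

theorem eulerP_eq (M : ℕ) {x : ℂ} (hx : ‖x‖ < 1) :
    eulerP x = (∏ n ∈ Finset.range M, (1 - x ^ (n + 1))) * eulerTail M x :=
  (Multipliable.prod_mul_tprod_nat_mul' (f := fun n : ℕ => 1 - x ^ (n + 1)) (k := M)
    (multipliable_tail M hx)).symm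

theorem norm_eulerTail_sub_one_le (M : ℕ) {x : ℂ} (hx : ‖x‖ ≤ 1 / 2) :
    ‖eulerTail M x - 1‖ ≤ 4 * ‖x‖ ^ (M + 1) := by
  have hx1 : ‖x‖ < 1 := by linarith
  have hlim := (multipliable_tail M hx1).hasProd.tendsto_prod_nat
  have hlim' := (hlim.sub_const 1).norm
  refine le_of_tendsto hlim' (Filter.Eventually.of_forall fun K => ?_)
  have h1 := Finset.norm_prod_one_add_sub_one_le (Finset.range K)
    (fun n : ℕ => -x ^ (n + M + 1))
  simp only [← sub_eq_add_neg] at h1
  refine h1.trans ?_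
  have hgeo : ∑ n ∈ Finset.range K, ‖-x ^ (n + M + 1)‖ ≤ 2 * ‖x‖ ^ (M + 1) := by
    have h2 : ∀ n, ‖-x ^ (n + M + 1)‖ = ‖x‖ ^ (M + 1) * ‖x‖ ^ n := fun n => by
      rw [norm_neg, norm_pow, ← pow_add]; congr 1; ring
    simp_rw [h2]
    rw [← Finset.mul_sum, mul_comm]
    refine mul_le_mul_of_nonneg_right ?_ (by positivity)
    have h3 := summable_geometric_of_lt_one (norm_nonneg x) hx1
    have h4 := h3.sum_le_tsum (Finset.range K) (fun n _ => by positivity)
    refine h4.trans ?_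
    rw [tsum_geometric_of_lt_one (norm_nonneg x) hx1, inv_le_comm₀ (by linarith) (by norm_num)]
    linarith
  set t := 2 * ‖x‖ ^ (M + 1) with ht
  have ht0 : 0 ≤ t := by positivity
  have ht1 : t ≤ 1 := by
    have h5 : ‖x‖ ^ (M + 1) ≤ 1 / 2 := by
      calc ‖x‖ ^ (M + 1) ≤ ‖x‖ ^ 1 :=
            pow_le_pow_of_le_one (norm_nonneg _) hx1.le (by omega)
        _ ≤ 1 / 2 := by rw [pow_one]; exact hx
    linarith
  have h6 : Real.exp (∑ n ∈ Finset.range K, ‖-x ^ (n + M + 1)‖) ≤ Real.exp t :=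
    Real.exp_le_exp.mpr hgeo
  have h7 : Real.exp t - 1 ≤ 2 * t := by
    have := Real.abs_exp_sub_one_le (x := t) (by rw [abs_of_nonneg ht0]; exact ht1)
    rw [abs_of_nonneg ht0] at this
    exact (le_abs_self _).trans this
  calc Real.exp (∑ n ∈ Finset.range K, ‖-x ^ (n + M + 1)‖) - 1 ≤ Real.exp t - 1 := by linarith
    _ ≤ 2 * t := h7
    _ = 4 * ‖x‖ ^ (M + 1) := by rw [ht]; ring

/-! ### Eta products as functions of `q` -/

theorem qParam_natMul (d : ℕ) (τ : ℍ) : 𝕢 1 ((d : ℂ) * τ) = (𝕢 1 τ) ^ d := by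
  simp only [Function.Periodic.qParam]
  rw [← Complex.exp_nat_mul]
  congr 1
  ring

theorem eta_natMul (d : ℕ) (τ : ℍ) :
    ModularForm.eta ((d : ℂ) * τ) = 𝕢 24 ((d : ℂ) * τ) * eulerP ((𝕢 1 τ) ^ d) := by
  unfold ModularForm.eta eulerP
  congr 1
  refine tprod_congr fun n => ?_
  rw [← qParam_natMul]

theorem etaProd_eq {N r : ℕ} (h : r * ∑ d ∈ N.divisors, d = 24) (τ : ℍ) :
    etaProd N r τ = 𝕢 1 τ * ∏ d : N.divisors, eulerP ((𝕢 1 τ) ^ (d : ℕ)) ^ r := by
  unfold etaProd
  have h1 : ∀ d : N.divisors, ModularForm.eta ((d : ℕ) * τ) ^ r =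
      Complex.exp (2 * π * Complex.I * τ / 24 * (r * (d : ℕ))) *
        eulerP ((𝕢 1 τ) ^ (d : ℕ)) ^ r := by
    intro d
    rw [eta_natMul, mul_pow]
    congr 1
    simp only [Function.Periodic.qParam]
    rw [← Complex.exp_nat_mul]
    congr 1
    push_cast
    ring
  rw [Finset.prod_congr rfl fun d _ => h1 d, Finset.prod_mul_distrib, ← Complex.exp_sum]
  congr 1
  simp only [Function.Periodic.qParam]
  congr 1
  rw [← Finset.mul_sum, ← Finset.mul_sum]
  have h2 : (r : ℂ) * ∑ d : N.divisors, ((d : ℕ) : ℂ) = 24 := by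
    have h3 : ∑ d : N.divisors, ((d : ℕ) : ℂ) = ((∑ d ∈ N.divisors, d : ℕ) : ℂ) := by
      rw [Nat.cast_sum]
      exact Finset.sum_coe_sort N.divisors (fun d : ℕ => (d : ℂ))
    rw [h3]
    exact_mod_cast h
  rw [h2]
  push_cast
  ring

/-- `X ∏_{n = 1}^{M} ∏_{d ∣ N} (1 - X ^ (dn)) ^ r` -/
def etaPoly (N r M : ℕ) : Polynomial ℤ :=
  Polynomial.X * ∏ d ∈ N.divisors,
    (∏ n ∈ Finset.range M, (1 - Polynomial.X ^ (d * (n + 1)))) ^ r

/-- the same polynomial evaluated at a complex number -/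
theorem aeval_etaPoly (N r M : ℕ) (q : ℂ) : Polynomial.aeval q (etaPoly N r M) =
    q * ∏ d : N.divisors, (∏ n ∈ Finset.range M, (1 - (q ^ (d : ℕ)) ^ (n + 1))) ^ r := by
  unfold etaPoly
  rw [map_mul, Polynomial.aeval_X, map_prod]
  congr 1
  rw [← Finset.prod_coe_sort N.divisors]
  refine Finset.prod_congr rfl fun d _ => ?_
  rw [map_pow, map_prod]
  congr 1
  refine Finset.prod_congr rfl fun n _ => ?_
  rw [map_sub, map_one, map_pow, Polynomial.aeval_X, pow_mul]

/-- the product of the tails -/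
def tailProd (N r M : ℕ) (q : ℂ) : ℂ := ∏ d : N.divisors, eulerTail M (q ^ (d : ℕ)) ^ r

theorem etaProd_eq_aeval {N r : ℕ} (h : r * ∑ d ∈ N.divisors, d = 24) (M : ℕ) (τ : ℍ) :
    etaProd N r τ = Polynomial.aeval (𝕢 1 τ) (etaPoly N r M) * tailProd N r M (𝕢 1 τ) := by
  have hq : ‖𝕢 1 (τ : ℂ)‖ < 1 := Function.Periodic.norm_qParam_lt_one one_pos τ.im_pos
  rw [etaProd_eq h, aeval_etaPoly, tailProd, mul_assoc, ← Finset.prod_mul_distrib]
  congr 1
  refine Finset.prod_congr rfl fun d _ => ?_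
  rw [← mul_pow]
  congr 1
  refine eulerP_eq M ?_
  rw [norm_pow]
  exact pow_lt_one₀ (norm_nonneg _) hq (Nat.pos_of_mem_divisors d.2).ne'

theorem tail_isBigO (M d : ℕ) (hd : 0 < d) :
    (fun q : ℂ => eulerTail M (q ^ d) - 1) =O[𝓝 0] fun q => q ^ (M + 1) := by
  refine isBigO_iff.mpr ⟨4, ?_⟩
  have h2 : (0 : ℝ) < 1 / 2 := by norm_num
  filter_upwards [Metric.ball_mem_nhds (0 : ℂ) h2] with q hq
  have hq' : ‖q‖ < 1 / 2 := by simpa using hq
  have h1 : ‖q ^ d‖ ≤ ‖q‖ := by
    rw [norm_pow]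
    calc ‖q‖ ^ d ≤ ‖q‖ ^ 1 := pow_le_pow_of_le_one (norm_nonneg _) (by linarith) (by omega)
      _ = ‖q‖ := pow_one _
  refine (norm_eulerTail_sub_one_le M (h1.trans hq'.le)).trans ?_
  rw [norm_pow q (M + 1)]
  exact mul_le_mul_of_nonneg_left (pow_le_pow_left₀ (norm_nonneg _) h1 _) (by norm_num)

/-- `(1 + O(g))` is stable under products -/
theorem isBigO_mul_sub_one {u v : ℂ → ℂ} {K : ℕ}
    (hu : (fun q => u q - 1) =O[𝓝 0] fun q => q ^ K)
    (hv : (fun q => v q - 1) =O[𝓝 0] fun q => q ^ K) :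
    (fun q => u q * v q - 1) =O[𝓝 0] fun q => q ^ K := by
  have h1 : (fun q => u q * v q - 1) = fun q => (u q - 1) * (v q - 1) + (u q - 1) + (v q - 1) := by
    funext q; ring
  rw [h1]
  refine IsBigO.add (IsBigO.add ?_ hu) hv
  have h2 := hu.mul hv
  refine h2.trans ?_
  refine isBigO_iff.mpr ⟨1, ?_⟩
  filter_upwards [Metric.ball_mem_nhds (0 : ℂ) one_pos] with q hq
  have hq' : ‖q‖ < 1 := by simpa using hq
  rw [norm_mul, one_mul, norm_pow]
  exact mul_le_of_le_one_left (by positivity) (pow_le_one₀ (norm_nonneg _) hq'.le)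

theorem isBigO_pow_sub_one {u : ℂ → ℂ} {K : ℕ} (hu : (fun q => u q - 1) =O[𝓝 0] fun q => q ^ K)
    (r : ℕ) : (fun q => u q ^ r - 1) =O[𝓝 0] fun q => q ^ K := by
  induction r with
  | zero => simpa using isBigO_zero _ _
  | succ r ih =>
    simp_rw [pow_succ]
    exact isBigO_mul_sub_one ih hu

theorem isBigO_prod_sub_one {ι : Type*} (s : Finset ι) {u : ι → ℂ → ℂ} {K : ℕ}
    (hu : ∀ i ∈ s, (fun q => u i q - 1) =O[𝓝 0] fun q => q ^ K) :
    (fun q => ∏ i ∈ s, u i q - 1) =O[𝓝 0] fun q => q ^ K := by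
  classical
  induction s using Finset.induction_on with
  | empty => simpa using isBigO_zero _ _
  | insert i s hi ih =>
    simp_rw [Finset.prod_insert hi]
    exact isBigO_mul_sub_one (hu i (Finset.mem_insert_self _ _))
      (ih fun j hj => hu j (Finset.mem_insert_of_mem hj))

theorem tailProd_isBigO (N r M : ℕ) :
    (fun q : ℂ => tailProd N r M q - 1) =O[𝓝 0] fun q => q ^ (M + 1) :=
  isBigO_prod_sub_one _ fun d _ =>
    isBigO_pow_sub_one (tail_isBigO M (d : ℕ) (Nat.pos_of_mem_divisors d.2)) r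

/-! ### The coefficients -/

/-- **Fourier coefficients of a multiple of an eta product.** -/
theorem qCoeff_eq {N r : ℕ} [NeZero N] (h : r * ∑ d ∈ N.divisors, d = 24)
    (f : CuspForm (Gamma0 N) 2) {a : ℂ} (hf : ∀ τ : ℍ, f τ = a * etaProd N r τ) (M : ℕ) :
    ∀ n ≤ M + 1, ModularFormClass.qCoeff f n = a * ((etaPoly N r M).coeff n : ℂ) := by
  set P := etaPoly N r M with hP
  set b : ℕ → ℂ := fun n => ModularFormClass.qCoeff f n - a * (P.coeff n : ℂ) with hb
  set F : ℂ → ℂ := fun q => a * Polynomial.aeval q P * (tailProd N r M q - 1) with hF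
  have hPsum : ∀ q : ℂ, HasSum (fun n => a * (P.coeff n : ℂ) * q ^ n)
      (a * Polynomial.aeval q P) := by
    intro q
    have h1 : Polynomial.aeval q P = ∑ n ∈ Finset.range (P.natDegree + 1),
        (P.coeff n : ℂ) * q ^ n := by
      rw [Polynomial.aeval_eq_sum_range]
      exact Finset.sum_congr rfl fun n _ => by rw [zsmul_eq_mul]
    have h2 : HasSum (fun n => (P.coeff n : ℂ) * q ^ n)
        (∑ n ∈ Finset.range (P.natDegree + 1), (P.coeff n : ℂ) * q ^ n) := by
      refine hasSum_sum_of_ne_finset_zero fun n hn => ?_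
      rw [Finset.mem_range, not_lt] at hn
      rw [Polynomial.coeff_eq_zero_of_natDegree_lt (by omega), Int.cast_zero, zero_mul]
    rw [h1]
    simpa [mul_assoc] using h2.mul_left a
  have hs : ∀ q : ℂ, q ≠ 0 → ‖q‖ < 1 → HasSum (fun n => b n * q ^ n) (F q) := by
    intro q hq0 hq1
    let τ : ℍ := ⟨Function.Periodic.invQParam 1 q,
      Function.Periodic.im_invQParam_pos_of_norm_lt_one one_pos hq1 hq0⟩
    have hτ : 𝕢 1 (τ : ℂ) = q := Function.Periodic.qParam_right_inv one_ne_zero hq0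
    have h1 := ModularForm.hasSum_qExpansion f one_pos
      (CongruenceSubgroup.one_mem_strictPeriods_Gamma0 N) τ
    rw [hτ, hf τ, etaProd_eq_aeval h M, hτ] at h1
    have h2 := h1.sub (hPsum q)
    have h3 : a * (Polynomial.aeval q (etaPoly N r M) * tailProd N r M q) -
        a * Polynomial.aeval q P = F q := by
      rw [hF, hP]; ring
    rw [h3] at h2
    refine h2.congr_fun fun n => ?_
    rw [hb]
    simp only [ModularFormClass.qCoeff]
    ring
  have hO : F =O[𝓝[≠] 0] fun q => q ^ (M + 2) := by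
    have h1 : (fun q : ℂ => a * Polynomial.aeval q P) =O[𝓝 0] fun q => q := by
      have h2 : ∀ q : ℂ, a * Polynomial.aeval q P =
          (a * ∏ d : N.divisors, (∏ n ∈ Finset.range M, (1 - (q ^ (d : ℕ)) ^ (n + 1))) ^ r) * q := by
        intro q
        rw [hP, aeval_etaPoly]; ring
      simp_rw [h2]
      have h3 : (fun q : ℂ => a * ∏ d : N.divisors,
          (∏ n ∈ Finset.range M, (1 - (q ^ (d : ℕ)) ^ (n + 1))) ^ r) =O[𝓝 0]
          fun _ => (1 : ℂ) := by
        have h4 : Continuous (fun q : ℂ => a * ∏ d : N.divisors,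
            (∏ n ∈ Finset.range M, (1 - (q ^ (d : ℕ)) ^ (n + 1))) ^ r) := by
          fun_prop
        exact (h4.tendsto 0).isBigO_one ℂ
      simpa using h3.mul (isBigO_refl (fun q : ℂ => q) (𝓝 0))
    have h2 := (h1.mul (tailProd_isBigO N r M)).mono (nhdsWithin_le_nhds (s := {0}ᶜ))
    refine h2.congr_right fun q => ?_
    ring
  have key := coeff_eq_zero_of_isBigO (M + 2) one_pos hs hO
  intro n hn
  exact sub_eq_zero.mp (key n (by omega))

end Fermat.Agent.Cor.Eta
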