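import Fermat.Agent.Corollaries.Eta.Bound

/-!
# Cusp forms of weight two and products of `Δ(dτ)`
-/

set_option autoImplicit false

noncomputable section

open UpperHalfPlane hiding I
open Complex ModularForm CongruenceSubgroup Matrix.SpecialLinearGroup Asymptotics Filter
open scoped Real MatrixGroups Topology Manifold

namespace Fermat.Agent.Cor.Eta

open Fermat.Agent.Igusa Fermat.Agent.IntStruct Fermat.Agent.S28aux Fermat.Agent.JLevelOne

instance neZero_divisor {N : ℕ} (d : N.divisors) : NeZero (d : ℕ) :=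
  ⟨(Nat.pos_of_mem_divisors d.2).ne'⟩

/-- `∏_{d ∣ N} Δ(dτ)` -/
def discProd (N : ℕ) (τ : ℍ) : ℂ := ∏ d : N.divisors, discriminant (mulN (d : ℕ) τ)

theorem discProd_ne_zero (N : ℕ) (τ : ℍ) : discProd N τ ≠ 0 :=
  Finset.prod_ne_zero_iff.mpr fun _ _ => discriminant_ne_zero _

theorem disc_smul {N d : ℕ} [NeZero N] [NeZero d] (hd : d ∣ N) {γ : SL(2, ℤ)}
    (hγ : γ ∈ Gamma0 N) (τ : ℍ) :
    discriminant (mulN d (γ • τ)) = (UpperHalfPlane.denom γ τ) ^ (12 : ℤ) *
      discriminant (mulN d τ) := by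
  have h := SlashInvariantForm.slash_action_eqn_SL'' (degen N hd discForm) hγ τ
  rw [degen_apply, degen_apply, discForm_apply, discForm_apply] at h
  have hd0 : (d : ℂ) ≠ 0 := by exact_mod_cast NeZero.ne d
  have h3 := zpow_ne_zero ((12 : ℤ) - 1) hd0
  apply mul_left_cancel₀ h3
  rw [h]
  ring

theorem mdiff_disc (d : ℕ) [NeZero d] :
    MDiff (fun τ : ℍ => discriminant (mulN d τ)) := by
  have h := (degen d dvd_rfl discForm).holo'
  have h1 : (fun τ : ℍ => discriminant (mulN d τ)) =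
      fun τ => ((d : ℂ) ^ ((12 : ℤ) - 1))⁻¹ * degen d dvd_rfl discForm τ := by
    funext τ
    rw [degen_apply, discForm_apply, ← mul_assoc, inv_mul_cancel₀, one_mul]
    exact zpow_ne_zero _ (by exact_mod_cast NeZero.ne d)
  rw [h1]
  exact mdifferentiable_const.mul h

theorem mdiff_discProd (N : ℕ) : MDiff (discProd N) := by
  rw [UpperHalfPlane.mdifferentiable_iff]
  have h : (discProd N ∘ ofComplex) =
      fun z => ∏ d : N.divisors, ((fun τ : ℍ => discriminant (mulN (d : ℕ) τ)) ∘ ofComplex) z := rfl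
  rw [h]
  exact DifferentiableOn.fun_finsetProd fun d _ =>
    UpperHalfPlane.mdifferentiable_iff.mp (mdiff_disc (d : ℕ))

/-- The quotient `f ^ m / ∏ Δ(dτ)` is bounded at all cusps. -/
theorem isBounded_quot {N : ℕ} [NeZero N] {m : ℕ} (hm : m = 6 * N.divisors.card)
    (hnum : ∀ M ∈ N.divisors, ∑ d : N.divisors, ((Nat.gcd M d : ℝ)) ^ 2 / (d : ℕ) ≤ m * M / N)
    (f : CuspForm (Gamma0 N) 2) (γ : SL(2, ℤ)) :
    IsBoundedAtImInfty (fun τ : ℍ => f (γ • τ) ^ m / discProd N (γ • τ)) := by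
  have hN0 : N ≠ 0 := NeZero.ne N
  set M : ℕ := Int.gcd (γ 1 0) N with hM
  have hMN : M ∣ N := by
    have := Int.gcd_dvd_right (γ 1 0) (N : ℤ)
    exact_mod_cast this
  have hMc : (M : ℤ) ∣ γ 1 0 := Int.gcd_dvd_left _ _
  obtain ⟨w, hw⟩ := hMN
  have hw0 : 0 < w := Nat.pos_of_ne_zero (by rintro rfl; exact hN0 (by rw [hw, mul_zero]))
  have hM0 : 0 < M := Nat.pos_of_ne_zero (by rintro h0; exact hN0 (by rw [hw, h0, zero_mul]))
  have hup := (upper f γ hw0 (by
    obtain ⟨c', hc'⟩ := hMc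
    rw [hc', hw]
    push_cast
    exact ⟨M * c' ^ 2, by ring⟩)).pow m
  choose A hAd hAc hA using fun d : N.divisors => exists_lower (d : ℕ) γ
  have hlow := IsBigO.finsetProd (s := Finset.univ) (l := atImInfty) (fun d _ => hA d)
  have hexp : (fun τ : ℍ => Real.exp (-2 * π * τ.im / w) ^ m) =O[atImInfty]
      fun τ : ℍ => ∏ d : N.divisors, Real.exp (-2 * π * ((A d : ℝ) ^ 2 / (d : ℕ)) * τ.im) := by
    refine IsBigO.of_bound 1 (Filter.Eventually.of_forall fun τ => ?_)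
    rw [one_mul, Real.norm_of_nonneg (by positivity), Real.norm_of_nonneg (by positivity),
      ← Real.exp_nat_mul, ← Real.exp_sum, Real.exp_le_exp]
    have h1 : ∑ d : N.divisors, (A d : ℝ) ^ 2 / (d : ℕ) ≤ m / w := by
      have h2 : ∑ d : N.divisors, (A d : ℝ) ^ 2 / (d : ℕ) ≤
          ∑ d : N.divisors, ((Nat.gcd M d : ℝ)) ^ 2 / (d : ℕ) := by
        refine Finset.sum_le_sum fun d _ => ?_
        have hd0 : (0 : ℝ) < (d : ℕ) := by exact_mod_cast Nat.pos_of_mem_divisors d.2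
        have h3 : A d ≤ Nat.gcd M d := by
          have hdN : (d : ℕ) ∣ N := Nat.dvd_of_mem_divisors d.2
          refine Nat.le_of_dvd (Nat.gcd_pos_of_pos_left _ hM0) (Nat.dvd_gcd ?_ (hAd d))
          have : (A d : ℤ) ∣ (M : ℤ) := Int.dvd_coe_gcd (hAc d)
            (Int.natCast_dvd_natCast.mpr ((hAd d).trans hdN))
          exact_mod_cast this
        have h4 : (A d : ℝ) ≤ (Nat.gcd M d : ℝ) := by exact_mod_cast h3
        gcongr
      refine h2.trans ((hnum M (Nat.mem_divisors.mpr ⟨⟨w, hw⟩, hN0⟩)).trans (le_of_eq ?_))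
      rw [hw]
      have : (M : ℝ) ≠ 0 := by exact_mod_cast hM0.ne'
      have : (w : ℝ) ≠ 0 := by exact_mod_cast hw0.ne'
      push_cast
      field_simp
    have h5 : ∑ d : N.divisors, -2 * π * ((A d : ℝ) ^ 2 / (d : ℕ)) * τ.im =
        -(2 * π * τ.im) * ∑ d : N.divisors, (A d : ℝ) ^ 2 / (d : ℕ) := by
      rw [Finset.mul_sum]
      exact Finset.sum_congr rfl fun d _ => by ring
    have h6 : (m : ℝ) * (-2 * π * τ.im / w) = -(2 * π * τ.im) * (m / w) := by ring
    rw [h5, h6]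
    have h7 : 0 < 2 * π * τ.im := by have := τ.im_pos; positivity
    nlinarith
  have hall := (hup.trans hexp).trans hlow
  obtain ⟨C, hC⟩ := isBigO_iff.mp hall
  refine isBigO_iff.mpr ⟨C, hC.mono fun τ hτ => ?_⟩
  have hden : UpperHalfPlane.denom γ τ ≠ 0 := UpperHalfPlane.denom_ne_zero _ _
  have hprod : ∏ d : N.divisors, discriminant (mulN (d : ℕ) (γ • τ)) *
      (UpperHalfPlane.denom γ τ) ^ (-12 : ℤ) =
      discProd N (γ • τ) * (UpperHalfPlane.denom γ τ) ^ (-(2 * m : ℕ) : ℤ) := by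
    rw [Finset.prod_mul_distrib, Finset.prod_const, Finset.card_univ, Fintype.card_coe]
    congr 1
    rw [← zpow_natCast, ← zpow_mul, hm]
    congr 1
    push_cast
    ring
  have hnumr : (f (γ • τ) * (UpperHalfPlane.denom γ τ) ^ (-2 : ℤ)) ^ m =
      f (γ • τ) ^ m * (UpperHalfPlane.denom γ τ) ^ (-(2 * m : ℕ) : ℤ) := by
    rw [mul_pow, ← zpow_natCast (_ ^ (-2 : ℤ)), ← zpow_mul]
    congr 2
  have hz := zpow_ne_zero (-(2 * m : ℕ) : ℤ) hden
  rw [hprod, hnumr, norm_mul, norm_mul] at hτ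
  have hz' : 0 < ‖(UpperHalfPlane.denom γ τ) ^ (-(2 * m : ℕ) : ℤ)‖ := norm_pos_iff.mpr hz
  rw [← mul_assoc] at hτ
  have h8 := le_of_mul_le_mul_right hτ hz'
  rw [norm_div, Pi.one_apply, norm_one, mul_one,
    div_le_iff₀ (norm_pos_iff.mpr (discProd_ne_zero N _))]
  exact h8

/-- `f ^ m / ∏ Δ(dτ)` as a modular form of weight zero. -/
def quotForm {N : ℕ} [NeZero N] {m : ℕ} (hm : m = 6 * N.divisors.card)
    (hnum : ∀ M ∈ N.divisors, ∑ d : N.divisors, ((Nat.gcd M d : ℝ)) ^ 2 / (d : ℕ) ≤ m * M / N)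
    (f : CuspForm (Gamma0 N) 2) : ModularForm (Gamma0 N) 0 where
  toFun τ := f τ ^ m / discProd N τ
  slash_action_eq' := by
    rintro _ ⟨γ, hγ, rfl⟩
    funext τ
    change ((fun τ => f τ ^ m / discProd N τ) ∣[(0 : ℤ)] γ) τ = _
    rw [ModularForm.SL_slash_apply, neg_zero, zpow_zero, mul_one]
    have h1 := SlashInvariantForm.slash_action_eqn_SL'' f hγ τ
    have h2 : discProd N (γ • τ) = (UpperHalfPlane.denom γ τ) ^ ((2 * m : ℕ) : ℤ) *
        discProd N τ := by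
      unfold discProd
      rw [Finset.prod_congr rfl fun (d : N.divisors) _ =>
        disc_smul (Nat.dvd_of_mem_divisors d.2) hγ τ, Finset.prod_mul_distrib,
        Finset.prod_const, Finset.card_univ, Fintype.card_coe]
      congr 1
      rw [← zpow_natCast, ← zpow_mul, hm]
      congr 1
      push_cast
      ring
    have h3 : ((UpperHalfPlane.denom γ τ) ^ (2 : ℤ)) ^ m =
        (UpperHalfPlane.denom γ τ) ^ ((2 * m : ℕ) : ℤ) := by
      rw [← zpow_natCast (_ ^ (2 : ℤ)), ← zpow_mul]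
      congr 1
    have hz := zpow_ne_zero ((2 * m : ℕ) : ℤ) (UpperHalfPlane.denom_ne_zero (γ : GL (Fin 2) ℝ) τ)
    change f (γ • τ) ^ m / discProd N (γ • τ) = f τ ^ m / discProd N τ
    rw [h1, h2, mul_pow, h3]
    exact mul_div_mul_left _ _ hz
  holo' := by
    have h1 : MDiff (fun τ => f τ ^ m) := by
      rw [UpperHalfPlane.mdifferentiable_iff]
      exact (UpperHalfPlane.mdifferentiable_iff.mp f.holo').pow m
    exact h1.div (mdiff_discProd N) (discProd_ne_zero N)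
  bdd_at_cusps' {c} hc := by
    rw [Subgroup.IsArithmetic.isCusp_iff_isCusp_SL2Z] at hc
    rw [OnePoint.isBoundedAt_iff_forall_SL2Z hc]
    intro γ _
    have h1 : ((fun τ => f τ ^ m / discProd N τ) ∣[(0 : ℤ)] γ) =
        fun τ : ℍ => f (γ • τ) ^ m / discProd N (γ • τ) := by
      funext τ
      rw [ModularForm.SL_slash_apply, neg_zero, zpow_zero, mul_one]
    change IsBoundedAtImInfty ((fun τ => f τ ^ m / discProd N τ) ∣[(0 : ℤ)] γ)
    rw [h1]
    exact isBounded_quot hm hnum f γ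

/-- **`f ^ m` is a constant multiple of `∏_{d ∣ N} Δ(dτ)`.** -/
theorem exists_pow_eq {N : ℕ} [NeZero N] {m : ℕ} (hm : m = 6 * N.divisors.card)
    (hnum : ∀ M ∈ N.divisors, ∑ d : N.divisors, ((Nat.gcd M d : ℝ)) ^ 2 / (d : ℕ) ≤ m * M / N)
    (f : CuspForm (Gamma0 N) 2) : ∃ c : ℂ, ∀ τ : ℍ, f τ ^ m = c * discProd N τ := by
  obtain ⟨c, hc⟩ := ModularForm.eq_const_of_weight_zero (quotForm hm hnum f)
  refine ⟨c, fun τ => ?_⟩
  have h1 : f τ ^ m / discProd N τ = c := congrFun hc τ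
  rw [← h1, div_mul_cancel₀ _ (discProd_ne_zero N τ)]

end Fermat.Agent.Cor.Eta
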