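import Fermat.Agent.Corollaries.Eta.Main
import Fermat.Agent.Corollaries.HW.StripFinal

/-!
# `L(E, x) > 0` for `x > 0` for the semistable elliptic curves of conductor `11`, `14`, `15`

The newform is a product of values of the Dedekind eta function, which is positive on the imaginary
axis (it is a product of positive numbers there), and the completed `L`-function is its Mellin
transform. So `L(E, x)` is positive for every real `x > 0`, in particular `L(E, 1) > 0`: the
analytic rank is zero, the root number is `1` and the number of primes of split multiplicative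
reduction is odd. The only real zeros of `L(E, s)` are `0, -1, -2, …`.
-/

set_option autoImplicit false

noncomputable section

open UpperHalfPlane hiding I
open Complex hiding eta
open ModularForm CongruenceSubgroup WeierstrassCurve MeasureTheory
open scoped Real MatrixGroups Topology

local notation "𝕢" => Function.Periodic.qParam

namespace Fermat.Agent.Cor.Eta

/-- `z` is a positive real number. -/
def IsPos (z : ℂ) : Prop := ∃ x : ℝ, 0 < x ∧ z = x

theorem IsPos.mul {z w : ℂ} (hz : IsPos z) (hw : IsPos w) : IsPos (z * w) := by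
  obtain ⟨x, hx, rfl⟩ := hz
  obtain ⟨y, hy, rfl⟩ := hw
  exact ⟨x * y, mul_pos hx hy, (ofReal_mul x y).symm⟩

theorem IsPos.pow {z : ℂ} (hz : IsPos z) (n : ℕ) : IsPos (z ^ n) := by
  obtain ⟨x, hx, rfl⟩ := hz
  exact ⟨x ^ n, pow_pos hx n, (ofReal_pow x n).symm⟩

theorem IsPos.inv {z : ℂ} (hz : IsPos z) : IsPos z⁻¹ := by
  obtain ⟨x, hx, rfl⟩ := hz
  exact ⟨x⁻¹, inv_pos.mpr hx, (ofReal_inv x).symm⟩

theorem IsPos.prod {ι : Type*} (s : Finset ι) {z : ι → ℂ} (h : ∀ i ∈ s, IsPos (z i)) :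
    IsPos (∏ i ∈ s, z i) :=
  Finset.prod_induction z IsPos (fun _ _ => IsPos.mul) ⟨1, one_pos, ofReal_one.symm⟩ h

theorem IsPos.ne_zero {z : ℂ} (hz : IsPos z) : z ≠ 0 := by
  obtain ⟨x, hx, rfl⟩ := hz
  exact ofReal_ne_zero.mpr hx.ne'

/-- A convergent product of positive real numbers which is not zero is positive. -/
theorem isPos_tprod {u : ℕ → ℂ} (hu : ∀ n, IsPos (u n)) (hm : Multipliable u)
    (h0 : ∏' n, u n ≠ 0) : IsPos (∏' n, u n) := by
  have hS : IsClosed {z : ℂ | 0 ≤ z.re ∧ z.im = 0} :=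
    (isClosed_le continuous_const Complex.continuous_re).inter
      (isClosed_eq Complex.continuous_im continuous_const)
  have hmem : ∏' n, u n ∈ {z : ℂ | 0 ≤ z.re ∧ z.im = 0} := by
    refine hS.mem_of_tendsto hm.hasProd (Filter.Eventually.of_forall fun s => ?_)
    obtain ⟨x, hx, he⟩ := IsPos.prod s fun i _ => hu i
    change 0 ≤ (∏ b ∈ s, u b).re ∧ (∏ b ∈ s, u b).im = 0
    rw [he]
    exact ⟨by simpa using hx.le, by simp⟩
  have h1 : ∏' n, u n = (((∏' n, u n).re : ℝ) : ℂ) := by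
    apply Complex.ext
    · simp
    · simpa using hmem.2
  refine ⟨(∏' n, u n).re, lt_of_le_of_ne hmem.1 fun h => h0 ?_, h1⟩
  rw [h1, ← h, ofReal_zero]

theorem isPos_exp (x : ℝ) : IsPos (cexp x) := ⟨Real.exp x, Real.exp_pos x, (ofReal_exp x).symm⟩

theorem qParam_I (h t : ℝ) : 𝕢 h (I * t) = cexp ((-2 * π * t / h : ℝ) : ℂ) := by
  rw [Function.Periodic.qParam]
  congr 1
  push_cast
  linear_combination (2 * π * t / h) * I_mul_I

/-- **The Dedekind eta function is positive on the imaginary axis.** -/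
theorem eta_I_pos {t : ℝ} (ht : 0 < t) : IsPos (eta (I * t)) := by
  have hz : (I * (t : ℂ)) ∈ upperHalfPlaneSet := by
    change 0 < (I * (t : ℂ)).im
    simpa using ht
  have hq := qParam_I 1 t
  have hr0 : 0 < Real.exp (-2 * π * t / 1) := Real.exp_pos _
  have hr1 : Real.exp (-2 * π * t / 1) < 1 := by
    rw [Real.exp_lt_one_iff]
    have := Real.pi_pos
    have : 0 < π * t := mul_pos this ht
    linarith
  rw [← ofReal_exp] at hq
  rw [eta]
  refine IsPos.mul ?_ (isPos_tprod (fun n => ?_) ?_ (eta_tprod_ne_zero hz))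
  · rw [show ((24 : ℝ)) = (24 : ℝ) from rfl, qParam_I]
    exact isPos_exp _
  · rw [eta_q, show (𝕢 1 (I * (t : ℂ))) = _ from hq, ← ofReal_pow, ← ofReal_one, ← ofReal_sub]
    exact ⟨_, sub_pos.mpr (pow_lt_one₀ hr0.le hr1 n.succ_ne_zero), rfl⟩
  · refine multipliable_one_sub_pow ?_
    rw [show (𝕢 1 (I * (t : ℂ))) = _ from hq, norm_real, Real.norm_of_nonneg hr0.le]
    exact hr1

theorem etaProd_I_pos (N r : ℕ) {t : ℝ} (ht : 0 < t) :
    IsPos (etaProd N r (ofComplex (I * (t : ℂ)))) := by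
  rw [etaProd]
  refine IsPos.prod _ fun d _ => IsPos.pow ?_ r
  have hd : 0 < ((d : ℕ) : ℝ) := by exact_mod_cast Nat.pos_of_mem_divisors d.2
  rw [HW.coe_ofComplex_I ht, show ((d : ℕ) : ℂ) * (I * (t : ℂ)) = I * (((d : ℕ) * t : ℝ) : ℂ) by
    push_cast; ring]
  exact eta_I_pos (mul_pos hd ht)

section mellin

variable {N : ℕ} [NeZero N]

/-- The Mellin transform of a cusp form converges everywhere. -/
theorem mellinConvergent_cusp (f : CuspForm (Gamma0 N) 2) (s : ℂ) :
    MellinConvergent (fun t : ℝ => f (ofComplex (I * (t : ℂ)))) s := by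
  have hP := CuspForm.isStrongFEPair
    (Γ := ((Gamma0 N : Subgroup SL(2, ℤ)) : Subgroup (GL (Fin 2) ℝ))) (k := 2) two_pos f
  obtain ⟨a, ha⟩ := exists_gt s.re
  obtain ⟨b, hb⟩ := exists_lt s.re
  exact mellinConvergent_of_isBigO_rpow
    (weakFEPair (Γ := ((Gamma0 N : Subgroup SL(2, ℤ)) : Subgroup (GL (Fin 2) ℝ)))
      (k := 2) two_pos f).hf_int (hP.hf_top _) ha (hP.hf_zero _) hb

/-- A cusp form which is positive on the imaginary axis has a positive completed `L`-function on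
the real axis. -/
theorem isPos_Λ (f : CuspForm (Gamma0 N) 2)
    (hf : ∀ t : ℝ, 0 < t → IsPos (f (ofComplex (I * (t : ℂ))))) (x : ℝ) :
    IsPos (ModularForm.Λ (Γ := ((Gamma0 N : Subgroup SL(2, ℤ)) : Subgroup (GL (Fin 2) ℝ)))
      (k := 2) two_pos f x) := by
  rw [CuspForm.Λ_eq_mellin (Γ := ((Gamma0 N : Subgroup SL(2, ℤ)) : Subgroup (GL (Fin 2) ℝ)))
    (k := 2) two_pos f]
  set g : ℝ → ℝ := fun t => (f (ofComplex (I * (t : ℂ)))).re with hg
  have hg0 : ∀ t : ℝ, 0 < t → 0 < g t ∧ f (ofComplex (I * (t : ℂ))) = g t := by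
    intro t ht
    obtain ⟨y, hy, he⟩ := hf t ht
    have h1 : g t = y := by rw [hg]; simp only; rw [he, ofReal_re]
    rw [h1]
    exact ⟨hy, he⟩
  have hcongr : ∀ t ∈ Set.Ioi (0 : ℝ), (t : ℂ) ^ ((x : ℂ) - 1) • f (ofComplex (I * (t : ℂ))) =
      ((t ^ (x - 1) * g t : ℝ) : ℂ) := by
    intro t ht
    rw [(hg0 t ht).2, smul_eq_mul, ofReal_mul, ofReal_cpow (le_of_lt ht)]
    push_cast
    rfl
  have hint : IntegrableOn (fun t : ℝ => ((t ^ (x - 1) * g t : ℝ) : ℂ)) (Set.Ioi 0) :=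
    (mellinConvergent_cusp f x).congr_fun hcongr measurableSet_Ioi
  have hint' : IntegrableOn (fun t : ℝ => t ^ (x - 1) * g t) (Set.Ioi 0) := by
    have h1 : Integrable (fun t : ℝ => ((t ^ (x - 1) * g t : ℝ) : ℂ)) (volume.restrict (Set.Ioi 0)) :=
      hint
    have h2 := h1.re
    simp only [RCLike.re_to_complex, ofReal_re] at h2
    exact h2
  have hpos : ∀ t ∈ Set.Ioi (0 : ℝ), 0 < t ^ (x - 1) * g t := fun t ht =>
    mul_pos (Real.rpow_pos_of_pos ht _) (hg0 t ht).1
  refine ⟨∫ t in Set.Ioi (0 : ℝ), t ^ (x - 1) * g t, ?_, ?_⟩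
  · rw [setIntegral_pos_iff_support_of_nonneg_ae _ hint']
    · refine lt_of_lt_of_le ?_ (measure_mono (μ := volume) (s := Set.Ioi (0 : ℝ)) fun t ht =>
        ⟨(hpos t ht).ne', ht⟩)
      simp
    · exact (ae_restrict_iff' measurableSet_Ioi).mpr
        (Filter.Eventually.of_forall fun t ht => (hpos t ht).le)
  · rw [mellin, setIntegral_congr_fun measurableSet_Ioi hcongr, integral_complex_ofReal]

theorem isPos_L (f : CuspForm (Gamma0 N) 2)
    (hf : ∀ t : ℝ, 0 < t → IsPos (f (ofComplex (I * (t : ℂ))))) {x : ℝ} (hx : 0 < x) :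
    IsPos (ModularForm.L (Γ := ((Gamma0 N : Subgroup SL(2, ℤ)) : Subgroup (GL (Fin 2) ℝ)))
      (k := 2) two_pos f x) := by
  have h2pi : (0 : ℝ) < 2 * π := by positivity
  have hG : IsPos (Gammaℂ x) := by
    rw [Gammaℂ_def, Gamma_ofReal]
    refine IsPos.mul (IsPos.mul ⟨2, two_pos, by norm_num⟩ ?_) ⟨_, Real.Gamma_pos_of_pos hx, rfl⟩
    refine ⟨(2 * π) ^ (-x), Real.rpow_pos_of_pos h2pi _, ?_⟩
    rw [ofReal_cpow h2pi.le]
    push_cast
    rfl
  rw [ModularForm.L, div_eq_mul_inv]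
  exact (isPos_Λ f hf x).mul (IsPos.mul ⟨2, two_pos, by norm_num⟩ hG.inv)

end mellin

variable {W : WeierstrassCurve ℤ}

theorem exists_isEtaLevel
    (hN : W.conductorLevel = 11 ∨ W.conductorLevel = 14 ∨ W.conductorLevel = 15) :
    ∃ r, IsEtaLevel W.conductorLevel r := by
  rcases hN with h | h | h
  · exact ⟨2, Or.inl ⟨h, rfl⟩⟩
  · exact ⟨1, Or.inr (Or.inl ⟨h, rfl⟩)⟩
  · exact ⟨1, Or.inr (Or.inr ⟨h, rfl⟩)⟩

/-- **The coefficients `a_p` of the Hasse-Weil `L`-function for all primes `p`**, the bad primes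
included, are the coefficients of the eta product. -/
theorem ap_eq_coeff (hΔ : W.Δ ≠ 0) (hW : W.IsSemistableModel) {r : ℕ}
    (hN : IsEtaLevel W.conductorLevel r) {p : ℕ} (hp : p.Prime) :
    HW.ap W p = (etaPoly W.conductorLevel r p).coeff p := by
  obtain ⟨f, ⟨hf, ha⟩, -⟩ := HW.existsUnique_newform_ap hΔ hW
  have h1 := (eq_etaProd hN f hf.1.qCoeff_one).2 p p (by omega)
  rw [ha p hp] at h1
  exact_mod_cast h1

/-- **The `L`-function of a semistable elliptic curve of conductor `11`, `14`, `15`** is the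
Dirichlet series (`re s > 3/2`) with the coefficients of the eta product. -/
theorem hasSum_L_coeff (hΔ : W.Δ ≠ 0) (hW : W.IsSemistableModel) {r : ℕ}
    (hN : IsEtaLevel W.conductorLevel r) {L : ℂ → ℂ} (hL : HW.IsHasseWeil W L) {s : ℂ}
    (hs : 3 / 2 < s.re) :
    HasSum (fun n : ℕ => ((etaPoly W.conductorLevel r n).coeff n : ℂ) / (n : ℂ) ^ s) (L s) := by
  obtain ⟨f, ⟨hf, ha⟩, -⟩ := HW.existsUnique_newform_ap hΔ hW
  have hH := HW.isHasse hΔ hf ha
  have h1 := (HW.summable_of_hasse hf.1 hH hs).hasSum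
  have h2 : ∑' n : ℕ, ModularFormClass.qCoeff f n / (n : ℂ) ^ s = L s := by
    rw [hL.unique (HW.isHasseWeil hΔ hf ha), ← HW.lseries_eq_of_hasse hf.1 hH hs, LSeries]
    refine tsum_congr fun n => ?_
    rcases eq_or_ne n 0 with rfl | hn
    · rw [LSeries.term_zero, FermatAgent.HeckeEigen.qCoeff_at_zero, zero_div]
    · rw [LSeries.term_of_ne_zero hn]
  rw [h2] at h1
  exact h1.congr_fun fun n => by rw [(eq_etaProd hN f hf.1.qCoeff_one).2 n n (by omega)]

/-- The newform of `W` is positive on the imaginary axis. -/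
theorem newform_I_pos (hN : W.conductorLevel = 11 ∨ W.conductorLevel = 14 ∨ W.conductorLevel = 15)
    {f : CuspForm (Gamma0 W.conductorLevel) 2} (hf : f.IsNewform) (t : ℝ) (ht : 0 < t) :
    IsPos (f (ofComplex (I * (t : ℂ)))) := by
  obtain ⟨r, hr⟩ := exists_isEtaLevel hN
  rw [(eq_etaProd hr f hf.1.qCoeff_one).1]
  exact etaProd_I_pos _ _ ht

/-- **`L(E, x) > 0` for every real `x > 0`**, `E` a semistable elliptic curve over `ℚ` of conductor
`11`, `14` or `15`. -/
theorem L_pos (hΔ : W.Δ ≠ 0) (hW : W.IsSemistableModel)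
    (hN : W.conductorLevel = 11 ∨ W.conductorLevel = 14 ∨ W.conductorLevel = 15) {L : ℂ → ℂ}
    (hL : HW.IsHasseWeil W L) {x : ℝ} (hx : 0 < x) : ∃ y : ℝ, 0 < y ∧ L x = y := by
  obtain ⟨f, ⟨hf, ha⟩, -⟩ := HW.existsUnique_newform_ap hΔ hW
  rw [hL.unique (HW.isHasseWeil hΔ hf ha)]
  exact isPos_L f (newform_I_pos hN hf) hx

/-- **`L(E, 1) > 0`** for every semistable elliptic curve over `ℚ` of conductor `11`, `14`, `15`. -/
theorem L_one_pos (hΔ : W.Δ ≠ 0) (hW : W.IsSemistableModel)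
    (hN : W.conductorLevel = 11 ∨ W.conductorLevel = 14 ∨ W.conductorLevel = 15) {L : ℂ → ℂ}
    (hL : HW.IsHasseWeil W L) : ∃ y : ℝ, 0 < y ∧ L 1 = y := by
  have := L_pos hΔ hW hN hL one_pos
  rwa [ofReal_one] at this

/-- **The real zeros of the `L`-function** are `0, -1, -2, …` (conductor `11`, `14`, `15`). -/
theorem L_real_eq_zero_iff (hΔ : W.Δ ≠ 0) (hW : W.IsSemistableModel)
    (hN : W.conductorLevel = 11 ∨ W.conductorLevel = 14 ∨ W.conductorLevel = 15) {L : ℂ → ℂ}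
    (hL : HW.IsHasseWeil W L) (x : ℝ) : L x = 0 ↔ ∃ n : ℕ, x = -n := by
  obtain ⟨f, ⟨hf, ha⟩, -⟩ := HW.existsUnique_newform_ap hΔ hW
  rw [hL.unique (HW.isHasseWeil hΔ hf ha)]
  constructor
  · intro h
    by_contra hx
    push Not at hx
    rw [HW.L_eq_zero_iff f (fun n hn => hx n (by exact_mod_cast hn)), HW.LamN, mul_eq_zero] at h
    rcases h with h | h
    · rw [Complex.cpow_eq_zero_iff] at h
      exact NeZero.ne W.conductorLevel (by exact_mod_cast h.1)
    · exact IsPos.ne_zero (isPos_Λ f (newform_I_pos hN hf) x) h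
  · rintro ⟨n, rfl⟩
    have := HW.L_neg_nat f n
    push_cast
    exact this

/-- The analytic rank of a semistable elliptic curve of conductor `11`, `14`, `15` is zero. -/
theorem analyticOrderAt_eq_zero (hΔ : W.Δ ≠ 0) (hW : W.IsSemistableModel)
    (hN : W.conductorLevel = 11 ∨ W.conductorLevel = 14 ∨ W.conductorLevel = 15) {L : ℂ → ℂ}
    (hL : HW.IsHasseWeil W L) : analyticOrderAt L 1 = 0 :=
  (hL.1.analyticAt 1).analyticOrderAt_eq_zero.mpr (IsPos.ne_zero (L_one_pos hΔ hW hN hL))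

/-- In conductor `11`, `14`, `15` the number of primes of split multiplicative reduction is odd. -/
theorem odd_splitPrimes (hΔ : W.Δ ≠ 0) (hW : W.IsSemistableModel)
    (hN : W.conductorLevel = 11 ∨ W.conductorLevel = 14 ∨ W.conductorLevel = 15) :
    Odd (HW.splitPrimes W).card := by
  obtain ⟨L, hL, -⟩ := HW.existsUnique_isHasseWeil hΔ hW
  rw [← HW.even_order_iff hΔ hW hL, analyticOrderNatAt, analyticOrderAt_eq_zero hΔ hW hN hL]
  exact Even.zero

/-- In conductor `11`, `14`, `15` the root number is `1`. -/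
theorem rootNumber_eq_one (hΔ : W.Δ ≠ 0) (hW : W.IsSemistableModel)
    (hN : W.conductorLevel = 11 ∨ W.conductorLevel = 14 ∨ W.conductorLevel = 15) :
    HW.rootNumber W = 1 :=
  (HW.rootNumber_eq_one_iff (HW.ap_eq_one_or hΔ hW)).mpr (odd_splitPrimes hΔ hW hN)

end Fermat.Agent.Cor.Eta
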