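import Fermat.Agent.Corollaries.Eta.Coeff
import Fermat.Agent.Corollaries.CondLevel

/-!
# Eichler's theorem: the elliptic curves of conductor `11`, `14` and `15`

For `N = 11, 14, 15` every cusp form of weight two on `Γ₀(N)` is a multiple of the eta product
`η(τ)²η(11τ)²`, `η(τ)η(2τ)η(7τ)η(14τ)`, `η(τ)η(3τ)η(5τ)η(15τ)`. By the modularity theorem for
semistable curves the traces of Frobenius of a semistable curve of conductor `N` are the
coefficients of the eta product. In particular, for `y² + y = x³ - x²` (conductor `11`),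
`y² + xy + y = x³ - x` (conductor `14`) and `y² + xy + y = x³ + x²` (conductor `15`) the number of
solutions modulo `p` is read off from an explicit product.
-/

set_option autoImplicit false

noncomputable section

open UpperHalfPlane hiding I
open Complex hiding eta
open ModularForm CongruenceSubgroup WeierstrassCurve
open scoped Real MatrixGroups Topology Manifold

namespace Fermat.Agent.Cor.Eta

/-! ### The numerical conditions -/

theorem hnum_eleven : ∀ M ∈ (11 : ℕ).divisors,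
    ∑ d : (11 : ℕ).divisors, ((Nat.gcd M d : ℝ)) ^ 2 / (d : ℕ) ≤ (12 : ℕ) * M / (11 : ℕ) := by
  have hd : (11 : ℕ).divisors = {1, 11} := by decide +kernel
  intro M hM
  have h1 := Finset.sum_coe_sort (11 : ℕ).divisors (fun d : ℕ => ((Nat.gcd M d : ℝ)) ^ 2 / (d : ℕ))
  rw [h1]
  rw [hd] at hM ⊢
  simp only [Finset.mem_insert, Finset.mem_singleton] at hM
  rcases hM with rfl | rfl <;> norm_num [Finset.sum_insert]

theorem hnum_fourteen : ∀ M ∈ (14 : ℕ).divisors,
    ∑ d : (14 : ℕ).divisors, ((Nat.gcd M d : ℝ)) ^ 2 / (d : ℕ) ≤ (24 : ℕ) * M / (14 : ℕ) := by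
  have hd : (14 : ℕ).divisors = {1, 2, 7, 14} := by decide +kernel
  intro M hM
  have h1 := Finset.sum_coe_sort (14 : ℕ).divisors (fun d : ℕ => ((Nat.gcd M d : ℝ)) ^ 2 / (d : ℕ))
  rw [h1]
  rw [hd] at hM ⊢
  simp only [Finset.mem_insert, Finset.mem_singleton] at hM
  rcases hM with rfl | rfl | rfl | rfl <;> norm_num [Finset.sum_insert]

theorem hnum_fifteen : ∀ M ∈ (15 : ℕ).divisors,
    ∑ d : (15 : ℕ).divisors, ((Nat.gcd M d : ℝ)) ^ 2 / (d : ℕ) ≤ (24 : ℕ) * M / (15 : ℕ) := by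
  have hd : (15 : ℕ).divisors = {1, 3, 5, 15} := by decide +kernel
  intro M hM
  have h1 := Finset.sum_coe_sort (15 : ℕ).divisors (fun d : ℕ => ((Nat.gcd M d : ℝ)) ^ 2 / (d : ℕ))
  rw [h1]
  rw [hd] at hM ⊢
  simp only [Finset.mem_insert, Finset.mem_singleton] at hM
  rcases hM with rfl | rfl | rfl | rfl <;> norm_num [Finset.sum_insert]

/-- the levels and exponents of the three eta products -/
def IsEtaLevel (N r : ℕ) : Prop := (N = 11 ∧ r = 2) ∨ (N = 14 ∧ r = 1) ∨ (N = 15 ∧ r = 1)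

/-- **`S₂(Γ₀(N))` is spanned by the eta product, `N = 11, 14, 15`.** -/
theorem exists_eq_smul_etaProd {N r : ℕ} [NeZero N] (hN : IsEtaLevel N r)
    (f : CuspForm (Gamma0 N) 2) : ∃ a : ℂ, ∀ τ : ℍ, f τ = a * etaProd N r τ := by
  rcases hN with ⟨rfl, rfl⟩ | ⟨rfl, rfl⟩ | ⟨rfl, rfl⟩
  · exact exists_eq_etaProd (m := 12) (by decide +kernel) hnum_eleven (by norm_num) f
  · exact exists_eq_etaProd (m := 24) (by decide +kernel) hnum_fourteen (by norm_num) f
  · exact exists_eq_etaProd (m := 24) (by decide +kernel) hnum_fifteen (by norm_num) f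

theorem IsEtaLevel.mul_sum {N r : ℕ} (hN : IsEtaLevel N r) : r * ∑ d ∈ N.divisors, d = 24 := by
  rcases hN with ⟨rfl, rfl⟩ | ⟨rfl, rfl⟩ | ⟨rfl, rfl⟩ <;> decide +kernel

/-- A normalised form of level `N` is the eta product, with its Fourier coefficients. -/
theorem eq_etaProd {N r : ℕ} [NeZero N] (hN : IsEtaLevel N r) (f : CuspForm (Gamma0 N) 2)
    (hf : ModularFormClass.qCoeff f 1 = 1) :
    (∀ τ : ℍ, f τ = etaProd N r τ) ∧
      ∀ M n : ℕ, n ≤ M + 1 → ModularFormClass.qCoeff f n = ((etaPoly N r M).coeff n : ℂ) := by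
  obtain ⟨a, ha⟩ := exists_eq_smul_etaProd hN f
  have h1 := qCoeff_eq hN.mul_sum f ha 0 1 le_rfl
  have h2 : (etaPoly N r 0).coeff 1 = 1 := by simp [etaPoly]
  rw [hf, h2, Int.cast_one, mul_one] at h1
  subst h1
  refine ⟨fun τ => by rw [ha τ, one_mul], fun M n hn => ?_⟩
  rw [qCoeff_eq hN.mul_sum f ha M n hn, one_mul]

/-- **Eichler's theorem, general form**: the traces of Frobenius of a semistable elliptic curve of
conductor `11`, `14`, `15` are the coefficients of the eta product. -/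
theorem apOfModel_eq_coeff {W : WeierstrassCurve ℤ} (hΔ : W.Δ ≠ 0) (hW : W.IsSemistableModel)
    {r : ℕ} (hN : IsEtaLevel W.conductorLevel r) {p : ℕ} (hp : p.Prime)
    (hg : W.IsGoodPrimeFor p) :
    W.apOfModel p = (etaPoly W.conductorLevel r p).coeff p := by
  obtain ⟨f, hf, hfp⟩ := exists_form_conductor hΔ hW
  have h1 := (eq_etaProd hN f hf.qCoeff_one).2 p p (by omega)
  rw [hfp p hp hg] at h1
  exact_mod_cast h1

/-! ### Counting points -/

/-- The points of a nonsingular Weierstrass curve over a finite field. -/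
theorem card_point_eq {F : Type*} [Field F] [Finite F] (W : WeierstrassCurve F) (hΔ : W.Δ ≠ 0) :
    Nat.card W.toAffine.Point = Nat.card {P : F × F // W.toAffine.Equation P.1 P.2} + 1 := by
  rw [← Finite.card_option]
  refine Nat.card_congr ?_
  exact
    { toFun := fun P => match P with
        | .zero => none
        | .some x y h => some ⟨(x, y), h.1⟩
      invFun := fun P => match P with
        | none => .zero
        | some P => .some P.1.1 P.1.2
            ((WeierstrassCurve.Affine.equation_iff_nonsingular_of_Δ_ne_zero hΔ).mp P.2)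
      left_inv := by rintro (_ | ⟨x, y, h⟩) <;> rfl
      right_inv := by rintro (_ | ⟨⟨x, y⟩, h⟩) <;> rfl }

/-- The number of affine points in terms of the trace of Frobenius. -/
theorem card_affine_eq {W : WeierstrassCurve ℤ} {p : ℕ} (hp : p.Prime) (hg : W.IsGoodPrimeFor p) :
    (Nat.card {P : ZMod p × ZMod p // (W.reductionMod p).toAffine.Equation P.1 P.2} : ℤ) =
      p - W.apOfModel p := by
  have : Fact p.Prime := ⟨hp⟩
  have hΔ : (W.reductionMod p).Δ ≠ 0 := by
    rw [reductionMod, WeierstrassCurve.map_Δ, eq_intCast, Ne, ZMod.intCast_zmod_eq_zero_iff_dvd]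
    exact hg
  have h1 := card_point_eq (W.reductionMod p) hΔ
  have h2 : W.apOfModel p = (p : ℤ) + 1 - (Nat.card (W.reductionMod p).toAffine.Point : ℤ) := by
    rw [apOfModel, traceOfFrobenius, Nat.card_zmod]
    rfl
  rw [h2, h1]
  push_cast
  ring

/-! ### The three curves -/

/-- `y² + y = x³ - x²`, of conductor `11` -/
def W11 : WeierstrassCurve ℤ := ⟨0, -1, 1, 0, 0⟩

/-- `y² + xy + y = x³ - x`, of conductor `14` -/
def W14 : WeierstrassCurve ℤ := ⟨1, 0, 1, -1, 0⟩

/-- `y² + xy + y = x³ + x²`, of conductor `15` -/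
def W15 : WeierstrassCurve ℤ := ⟨1, 1, 1, 0, 0⟩

theorem W11_Δ : W11.Δ = -11 := by decide +kernel
theorem W14_Δ : W14.Δ = -28 := by decide +kernel
theorem W15_Δ : W15.Δ = -15 := by decide +kernel
theorem W11_c₄ : W11.c₄ = 16 := by decide +kernel
theorem W14_c₄ : W14.c₄ = 25 := by decide +kernel
theorem W15_c₄ : W15.c₄ = 1 := by decide +kernel

theorem prime_dvd_neg_iff {q n : ℕ} : (q : ℤ) ∣ -(n : ℤ) ↔ q ∣ n := by
  rw [dvd_neg, Int.natCast_dvd_natCast]

theorem isSemistableModel_of_coprime {W : WeierstrassCurve ℤ} (h : IsCoprime W.Δ W.c₄) :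
    W.IsSemistableModel := fun _ hp hd hc =>
  (Nat.prime_iff_prime_int.mp hp).not_isUnit (h.isUnit_of_dvd' hd hc)

theorem W11_semistable : W11.IsSemistableModel :=
  isSemistableModel_of_coprime (by rw [W11_Δ, W11_c₄]; exact ⟨-3, -2, by norm_num⟩)

theorem W14_semistable : W14.IsSemistableModel :=
  isSemistableModel_of_coprime (by rw [W14_Δ, W14_c₄]; exact ⟨8, 9, by norm_num⟩)

theorem W15_semistable : W15.IsSemistableModel :=
  isSemistableModel_of_coprime (by rw [W15_Δ, W15_c₄]; exact ⟨0, 1, by norm_num⟩)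

theorem W11_dvd_iff {q : ℕ} (_ : q.Prime) : (q : ℤ) ∣ W11.Δ ↔ q ∣ 11 := by
  rw [W11_Δ]; exact prime_dvd_neg_iff (n := 11)

theorem W14_dvd_iff {q : ℕ} (hq : q.Prime) : (q : ℤ) ∣ W14.Δ ↔ q ∣ 14 := by
  rw [W14_Δ]
  refine (prime_dvd_neg_iff (n := 28)).trans ?_
  rw [show (28 : ℕ) = 2 * 14 by norm_num, hq.dvd_mul]
  constructor
  · rintro (h | h)
    · exact h.trans (by norm_num)
    · exact h
  · exact Or.inr

theorem W15_dvd_iff {q : ℕ} (_ : q.Prime) : (q : ℤ) ∣ W15.Δ ↔ q ∣ 15 := by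
  rw [W15_Δ]; exact prime_dvd_neg_iff (n := 15)

theorem W11_conductorLevel : W11.conductorLevel = 11 :=
  (eq_conductorLevel (by rw [W11_Δ]; norm_num) (by decide +kernel)
    fun q hq => (W11_dvd_iff hq).symm).symm

theorem W14_conductorLevel : W14.conductorLevel = 14 :=
  (eq_conductorLevel (by rw [W14_Δ]; norm_num) (by decide +kernel)
    fun q hq => (W14_dvd_iff hq).symm).symm

theorem W15_conductorLevel : W15.conductorLevel = 15 :=
  (eq_conductorLevel (by rw [W15_Δ]; norm_num) (by decide +kernel)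
    fun q hq => (W15_dvd_iff hq).symm).symm

open Polynomial in
theorem etaPoly_eleven (M : ℕ) : etaPoly 11 2 M =
    X * ∏ n ∈ Finset.range M, ((1 - X ^ (n + 1)) ^ 2 * (1 - X ^ (11 * (n + 1))) ^ 2) := by
  have hd : (11 : ℕ).divisors = {1, 11} := by decide +kernel
  rw [etaPoly, hd, Finset.prod_pair (by norm_num), Finset.prod_mul_distrib, Finset.prod_pow,
    Finset.prod_pow]
  simp only [one_mul]

open Polynomial in
theorem etaPoly_fourteen (M : ℕ) : etaPoly 14 1 M =
    X * ∏ n ∈ Finset.range M, ((1 - X ^ (n + 1)) * (1 - X ^ (2 * (n + 1))) *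
      (1 - X ^ (7 * (n + 1))) * (1 - X ^ (14 * (n + 1)))) := by
  have hd : (14 : ℕ).divisors = {1, 2, 7, 14} := by decide +kernel
  rw [etaPoly, hd]
  simp only [pow_one, Finset.prod_mul_distrib]
  rw [Finset.prod_insert (by decide), Finset.prod_insert (by decide),
    Finset.prod_insert (by decide), Finset.prod_singleton]
  simp only [one_mul, mul_assoc]

open Polynomial in
theorem etaPoly_fifteen (M : ℕ) : etaPoly 15 1 M =
    X * ∏ n ∈ Finset.range M, ((1 - X ^ (n + 1)) * (1 - X ^ (3 * (n + 1))) *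
      (1 - X ^ (5 * (n + 1))) * (1 - X ^ (15 * (n + 1)))) := by
  have hd : (15 : ℕ).divisors = {1, 3, 5, 15} := by decide +kernel
  rw [etaPoly, hd]
  simp only [pow_one, Finset.prod_mul_distrib]
  rw [Finset.prod_insert (by decide), Finset.prod_insert (by decide),
    Finset.prod_insert (by decide), Finset.prod_singleton]
  simp only [one_mul, mul_assoc]

/-- transport of the general theorem along `W.conductorLevel = N` -/
theorem apOfModel_eq_coeff' {W : WeierstrassCurve ℤ} (hΔ : W.Δ ≠ 0) (hW : W.IsSemistableModel)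
    {N r : ℕ} (h : W.conductorLevel = N) (hN : IsEtaLevel N r) {p : ℕ} (hp : p.Prime)
    (hg : W.IsGoodPrimeFor p) : W.apOfModel p = (etaPoly N r p).coeff p := by
  subst h
  exact apOfModel_eq_coeff hΔ hW hN hp hg

open Polynomial in
/-- **Eichler's theorem** (1954): for every prime `p ≠ 11` the number of solutions of
`y² + y = x³ - x²` modulo `p` is `p - a_p`, `a_p` the coefficient of `X ^ p` in
`X ∏ (1 - X ^ n)² (1 - X ^ (11 n))²`. -/
theorem eichler_eleven {p : ℕ} (hp : p.Prime) (h : p ≠ 11) :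
    (Nat.card {P : ZMod p × ZMod p // P.2 ^ 2 + P.2 = P.1 ^ 3 - P.1 ^ 2} : ℤ) =
      p - (X * ∏ n ∈ Finset.range p,
        ((1 - X ^ (n + 1)) ^ 2 * (1 - X ^ (11 * (n + 1))) ^ 2) : ℤ[X]).coeff p := by
  have hΔ : W11.Δ ≠ 0 := by rw [W11_Δ]; norm_num
  have hg : W11.IsGoodPrimeFor p := fun hd => by
    rw [W11_dvd_iff hp, Nat.prime_dvd_prime_iff_eq hp (by norm_num)] at hd
    exact h hd
  rw [← etaPoly_eleven, ← apOfModel_eq_coeff' hΔ W11_semistable W11_conductorLevel
    (Or.inl ⟨rfl, rfl⟩) hp hg, ← card_affine_eq hp hg]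
  congr 1
  refine Nat.card_congr (Equiv.subtypeEquivRight fun P => ?_)
  rw [WeierstrassCurve.Affine.equation_iff]
  simp [W11, reductionMod, WeierstrassCurve.map, sub_eq_add_neg]

open Polynomial in
/-- The curve `y² + xy + y = x³ - x` of conductor `14`. -/
theorem eichler_fourteen {p : ℕ} (hp : p.Prime) (h2 : p ≠ 2) (h7 : p ≠ 7) :
    (Nat.card {P : ZMod p × ZMod p // P.2 ^ 2 + P.1 * P.2 + P.2 = P.1 ^ 3 - P.1} : ℤ) =
      p - (X * ∏ n ∈ Finset.range p, ((1 - X ^ (n + 1)) * (1 - X ^ (2 * (n + 1))) *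
        (1 - X ^ (7 * (n + 1))) * (1 - X ^ (14 * (n + 1)))) : ℤ[X]).coeff p := by
  have hΔ : W14.Δ ≠ 0 := by rw [W14_Δ]; norm_num
  have hg : W14.IsGoodPrimeFor p := fun hd => by
    rw [W14_dvd_iff hp, show (14 : ℕ) = 2 * 7 by norm_num, hp.dvd_mul,
      Nat.prime_dvd_prime_iff_eq hp (by norm_num), Nat.prime_dvd_prime_iff_eq hp (by norm_num)]
      at hd
    exact hd.elim h2 h7
  rw [← etaPoly_fourteen, ← apOfModel_eq_coeff' hΔ W14_semistable W14_conductorLevel
    (Or.inr (Or.inl ⟨rfl, rfl⟩)) hp hg, ← card_affine_eq hp hg]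
  congr 1
  refine Nat.card_congr (Equiv.subtypeEquivRight fun P => ?_)
  rw [WeierstrassCurve.Affine.equation_iff]
  simp [W14, reductionMod, WeierstrassCurve.map, sub_eq_add_neg]

open Polynomial in
/-- The curve `y² + xy + y = x³ + x²` of conductor `15`. -/
theorem eichler_fifteen {p : ℕ} (hp : p.Prime) (h3 : p ≠ 3) (h5 : p ≠ 5) :
    (Nat.card {P : ZMod p × ZMod p // P.2 ^ 2 + P.1 * P.2 + P.2 = P.1 ^ 3 + P.1 ^ 2} : ℤ) =
      p - (X * ∏ n ∈ Finset.range p, ((1 - X ^ (n + 1)) * (1 - X ^ (3 * (n + 1))) *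
        (1 - X ^ (5 * (n + 1))) * (1 - X ^ (15 * (n + 1)))) : ℤ[X]).coeff p := by
  have hΔ : W15.Δ ≠ 0 := by rw [W15_Δ]; norm_num
  have hg : W15.IsGoodPrimeFor p := fun hd => by
    rw [W15_dvd_iff hp, show (15 : ℕ) = 3 * 5 by norm_num, hp.dvd_mul,
      Nat.prime_dvd_prime_iff_eq hp (by norm_num), Nat.prime_dvd_prime_iff_eq hp (by norm_num)]
      at hd
    exact hd.elim h3 h5
  rw [← etaPoly_fifteen, ← apOfModel_eq_coeff' hΔ W15_semistable W15_conductorLevel
    (Or.inr (Or.inr ⟨rfl, rfl⟩)) hp hg, ← card_affine_eq hp hg]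
  congr 1
  refine Nat.card_congr (Equiv.subtypeEquivRight fun P => ?_)
  rw [WeierstrassCurve.Affine.equation_iff]
  simp [W15, reductionMod, WeierstrassCurve.map]

end Fermat.Agent.Cor.Eta
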