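import Fermat.Agent.Corollaries.Eta.Const

/-!
# Eta products
-/

set_option autoImplicit false

noncomputable section

open UpperHalfPlane hiding I
open Complex hiding eta
open ModularForm CongruenceSubgroup Matrix.SpecialLinearGroup Asymptotics Filter
open scoped Real MatrixGroups Topology Manifold

namespace Fermat.Agent.Cor.Eta

open Fermat.Agent.Igusa

local notation "𝕢" => Function.Periodic.qParam

/-- `∏_{d ∣ N} η(dτ) ^ r` -/
def etaProd (N r : ℕ) (τ : ℍ) : ℂ := ∏ d : N.divisors, eta ((d : ℕ) * τ) ^ r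

theorem coe_mulN_mem (d : ℕ) [NeZero d] (τ : ℍ) : ((d : ℂ) * τ) ∈ upperHalfPlaneSet := by
  have := (mulN d τ).2
  rw [← coe_mulN]
  exact this

theorem etaProd_ne_zero (N r : ℕ) (τ : ℍ) : etaProd N r τ ≠ 0 :=
  Finset.prod_ne_zero_iff.mpr fun d _ => pow_ne_zero _ (eta_ne_zero (coe_mulN_mem (d : ℕ) τ))

theorem etaProd_pow {N r m : ℕ} (h : r * m = 24) (τ : ℍ) : etaProd N r τ ^ m = discProd N τ := by
  unfold etaProd discProd
  rw [← Finset.prod_pow]
  refine Finset.prod_congr rfl fun d _ => ?_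
  rw [← pow_mul, h]
  rfl

theorem continuous_etaProd (N r : ℕ) : Continuous (etaProd N r) := by
  unfold etaProd
  refine continuous_finsetProd _ fun d _ => Continuous.pow ?_ r
  rw [continuous_iff_continuousAt]
  intro τ
  have h1 : ContinuousAt eta ((d : ℕ) * τ : ℂ) :=
    (differentiableAt_eta_of_mem_upperHalfPlaneSet (coe_mulN_mem (d : ℕ) τ)).continuousAt
  have h2 : ContinuousAt (fun τ : ℍ => ((d : ℕ) * τ : ℂ)) τ :=
    (continuous_const.mul UpperHalfPlane.continuous_coe).continuousAt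
  exact ContinuousAt.comp (f := fun τ : ℍ => ((d : ℕ) * τ : ℂ)) h1 h2

/-- **Every cusp form of weight two is a multiple of the eta product.** -/
theorem exists_eq_etaProd {N r : ℕ} [NeZero N] {m : ℕ} (hm : m = 6 * N.divisors.card)
    (hnum : ∀ M ∈ N.divisors, ∑ d : N.divisors, ((Nat.gcd M d : ℝ)) ^ 2 / (d : ℕ) ≤ m * M / N)
    (hrm : r * m = 24) (f : CuspForm (Gamma0 N) 2) : ∃ a : ℂ, ∀ τ : ℍ, f τ = a * etaProd N r τ := by
  obtain ⟨c, hc⟩ := exists_pow_eq hm hnum f
  have hm0 : m ≠ 0 := by rintro rfl; simp at hrm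
  have hcont : Continuous (fun τ : ℍ => f τ / etaProd N r τ) :=
    (ModularFormClass.holo f).continuous.div (continuous_etaProd N r) (etaProd_ne_zero N r)
  have hfin : {w : ℂ | w ^ m = c}.Finite := by
    have hp : (Polynomial.X ^ m - Polynomial.C c : Polynomial ℂ) ≠ 0 :=
      Polynomial.X_pow_sub_C_ne_zero (Nat.pos_of_ne_zero hm0) c
    refine ((Polynomial.X ^ m - Polynomial.C c : Polynomial ℂ).rootSet_finite ℂ).subset ?_
    intro w hw
    rw [Polynomial.mem_rootSet]
    refine ⟨hp, ?_⟩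
    have hw' : w ^ m = c := hw
    simp [hw']
  have hmaps : Set.MapsTo (fun τ : ℍ => f τ / etaProd N r τ) Set.univ {w : ℂ | w ^ m = c} := by
    intro τ _
    change (f τ / etaProd N r τ) ^ m = c
    rw [div_pow, hc τ, etaProd_pow hrm, mul_div_cancel_right₀ _ (discProd_ne_zero N τ)]
  have hconst : ∀ x y : ℍ, f x / etaProd N r x = f y / etaProd N r y := fun x y =>
    isPreconnected_univ.constant_of_mapsTo hfin.isDiscrete hcont.continuousOn hmaps
      (Set.mem_univ x) (Set.mem_univ y)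
  refine ⟨f UpperHalfPlane.I / etaProd N r UpperHalfPlane.I, fun τ => ?_⟩
  rw [← hconst τ UpperHalfPlane.I, div_mul_cancel₀ _ (etaProd_ne_zero N r τ)]

end Fermat.Agent.Cor.Eta
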